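import Fermat.Agent.CharacteristicVectors.Shadow
import Fermat.Agent.Gleason.Ring

/-!
# Elkies: a characterization of the lattice `ℤⁿ`

When every characteristic vector has value at least `n` the quotient of the theta series by `θⁿ`
is bounded at both cusps of the theta group, so the symmetric functions of its three translates
are constants, and so is the quotient. Equal theta series give `2 n` vectors of value one.
-/

set_option autoImplicit false

noncomputable section

namespace FA.CharacteristicVectors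

open Complex Matrix Filter
open UpperHalfPlane hiding I
open IndefiniteUnimodular (val Characteristic Iso)
open scoped Real Topology MatrixGroups ModularForm

variable {n : ℕ}

/-- **Jacobi's theta series has no zero in the upper half plane.** -/
theorem jacobiTheta_ne_zero {τ : ℂ} (hτ : 0 < τ.im) : jacobiTheta τ ≠ 0 := fun h0 => by
  obtain ⟨-, c, hc, h⟩ := Gleason.theta_values
  have hz : 0 < (τ / 2).im := by rw [Complex.div_ofNat_im]; positivity
  have e := h ⟨τ / 2, hz⟩
  rw [show Gleason.thetaA ((⟨τ / 2, hz⟩ : ℍ) : ℂ) = 0 by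
    rw [Gleason.thetaA]
    show jacobiTheta (2 * (τ / 2)) = 0
    rwa [mul_div_cancel₀ τ two_ne_zero]] at e
  simp [Gleason.psi24, hc, ModularForm.discriminant_ne_zero] at e

theorem posUnimodular_one : PosUnimodular (1 : Matrix (Fin n) (Fin n) ℤ) := by
  refine ⟨⟨Matrix.isSymm_one, by simp⟩, fun x hx => ?_⟩
  obtain ⟨i, hi⟩ := Function.ne_iff.1 hx
  rw [← Matrix.diagonal_one, IndefiniteUnimodular.val_diagonal]
  exact Finset.sum_pos' (fun j _ => by positivity)
    ⟨i, Finset.mem_univ i, by rw [one_mul]; exact pow_two_pos_of_ne_zero hi⟩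

theorem val_one (x : Fin n → ℤ) : val (1 : Matrix (Fin n) (Fin n) ℤ) x = ∑ i, x i ^ 2 := by
  simp [← Matrix.diagonal_one, IndefiniteUnimodular.val_diagonal]

theorem characteristic_one : Characteristic (1 : Matrix (Fin n) (Fin n) ℤ) fun _ => 1 :=
  fun x => by
  rw [Matrix.one_mulVec, val_one, dotProduct, ← Finset.sum_sub_distrib]
  refine Finset.dvd_sum fun i _ => ?_
  rw [show 1 * x i - x i ^ 2 = -(x i * (x i - 1)) by ring]
  exact dvd_neg.2 (even_iff_two_dvd.1 (Int.even_mul_pred_self _))

theorem tsum_pi_pow {f : ℤ → ℂ} (hf : Summable fun k => ‖f k‖) :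
    ∀ n : ℕ, ∑' v : Fin n → ℤ, ∏ i, f (v i) = (∑' k, f k) ^ n := by
  intro n
  induction n with
  | zero => simp [tsum_fintype]
  | succ n ih =>
    have hs : Summable fun v : Fin n → ℤ => ‖∏ i, f (v i)‖ :=
      (HeckeFE.summable_pi_prod (fun k => norm_nonneg (f k)) hf).congr fun v =>
        (norm_prod _ _).symm
    rw [← (Fin.consEquiv fun _ : Fin (n + 1) => ℤ).tsum_eq, pow_succ', ← ih,
      tsum_mul_tsum_of_summable_norm hf hs]
    refine tsum_congr fun p => ?_
    simp [Fin.prod_univ_succ]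

theorem summable_norm_jacobi {z : ℂ} (hz : 0 < z.im) :
    Summable fun k : ℤ => ‖cexp (π * I * (k : ℂ) ^ 2 * z)‖ := by
  refine ((summable_jacobiTheta₂_term_iff (0 : ℂ) z).2 hz).norm.congr fun k => ?_
  rw [jacobiTheta₂_term]
  ring_nf

theorem latTheta_one {z : ℂ} (hz : 0 < z.im) :
    latTheta (1 : Matrix (Fin n) (Fin n) ℤ) z = jacobiTheta z ^ n := by
  rw [jacobiTheta, ← tsum_pi_pow (summable_norm_jacobi hz)]
  refine tsum_congr fun v => ?_
  rw [← Complex.exp_sum, val_one]
  push_cast
  rw [Finset.mul_sum, Finset.sum_mul]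

theorem latTheta_one_ne_zero {z : ℂ} (hz : 0 < z.im) :
    latTheta (1 : Matrix (Fin n) (Fin n) ℤ) z ≠ 0 := by
  rw [latTheta_one hz]
  exact pow_ne_zero _ (jacobiTheta_ne_zero hz)

/-- A function on the upper half plane, invariant under `z ↦ z + 1` and `z ↦ -1/z` and with a
limit at infinity, is constant. -/
theorem eq_of_invariant {g : ℂ → ℂ} {L : ℂ} (hd : ∀ z : ℂ, 0 < z.im → DifferentiableAt ℂ g z)
    (hT : ∀ z : ℂ, 0 < z.im → g (z + 1) = g z) (hS : ∀ z : ℂ, 0 < z.im → g (-1 / z) = g z)
    (hL : Tendsto (fun z : ℍ => g z) atImInfty (𝓝 L)) {z : ℂ} (hz : 0 < z.im) : g z = L := by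
  have h1 : (fun z : ℍ => g z) ∣[(0 : ℤ)] ModularGroup.S = fun z : ℍ => g z := by
    funext w
    rw [ModularForm.SL_slash_apply, ModularGroup.denom_S, UpperHalfPlane.modular_S_smul]
    show g (-(w : ℂ))⁻¹ * (w : ℂ) ^ (-(0 : ℤ)) = g w
    rw [show (-(w : ℂ))⁻¹ = -1 / (w : ℂ) by field_simp [UpperHalfPlane.ne_zero w],
      hS _ w.im_pos]
    simp
  have h2 : (fun z : ℍ => g z) ∣[(0 : ℤ)] ModularGroup.T = fun z : ℍ => g z := by
    funext w
    rw [ModularForm.SL_slash_apply, UpperHalfPlane.modular_T_smul, UpperHalfPlane.coe_vadd]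
    simp only [neg_zero, zpow_zero, mul_one]
    rw [Complex.ofReal_one, add_comm, hT _ w.im_pos]
  have h : ∃ F : ModularForm 𝒮ℒ 0, ⇑F = fun z : ℍ => g z := ⟨{
    toFun := fun z => g z
    slash_action_eq' := fun A hA => by
      obtain ⟨A, rfl⟩ := hA
      exact SlashInvariantForm.slash_action_generators_SL2Z h1 h2 A
    holo' := by
      rw [UpperHalfPlane.mdifferentiable_iff]
      exact DifferentiableOn.congr (fun w hw => (hd w hw).differentiableWithinAt)
        fun w hw => by simp [ofComplex_apply_of_im_pos hw]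
    bdd_at_cusps' := fun hc => by
      rw [Subgroup.IsArithmetic.isCusp_iff_isCusp_SL2Z] at hc
      refine (OnePoint.isBoundedAt_iff_forall_SL2Z hc).2 fun γ _ => ?_
      rw [SlashInvariantForm.slash_action_generators_SL2Z h1 h2 γ]
      exact hL.isBigO_one ℝ }, rfl⟩
  obtain ⟨F, hF⟩ := h
  obtain ⟨c, hc⟩ := ModularFormClass.levelOne_weight_zero_const F
  rw [hF] at hc
  have hconst : ∀ w : ℍ, g w = c := fun w => congrFun hc w
  have : (atImInfty : Filter ℍ).NeBot := inferInstance
  have hcL : c = L := tendsto_nhds_unique (tendsto_const_nhds.congr fun w => (hconst w).symm) hL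
  exact (hconst ⟨z, hz⟩).trans hcL

theorem finite_val_eq {A : Matrix (Fin n) (Fin n) ℤ} (hA : PosUnimodular A) (m : ℤ) :
    {v | val A v = m}.Finite := by
  have h := ((summable_exp_gram hA.posDef one_pos).tendsto_cofinite_zero.eventually
    (gt_mem_nhds (Real.exp_pos (-(π * 1 * m)))))
  rw [eventually_cofinite] at h
  refine h.subset fun v (hv : val A v = m) => ?_
  simp [gramVal_toReal, hv]

theorem summable_exp_val {A : Matrix (Fin n) (Fin n) ℤ} (hA : PosUnimodular A) {a : ℝ}
    (ha : 0 < a) : Summable fun v : Fin n → ℤ => Real.exp (-(π * a * (val A v : ℝ))) :=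
  (summable_exp_gram hA.posDef ha).congr fun v => by rw [gramVal_toReal]

theorem tendsto_latTheta {A : Matrix (Fin n) (Fin n) ℤ} (hA : PosUnimodular A) :
    Tendsto (fun z : ℍ => latTheta A z) atImInfty (𝓝 1) := by
  have h := tendsto_tsum_exp (e := fun v : Fin n → ℤ => (val A v : ℝ))
    (fun v => Int.cast_nonneg (hA.val_nonneg v))
    (by simpa using summable_exp_val hA one_pos)
  have hu : Nat.card {v : Fin n → ℤ // (val A v : ℝ) = 0} = 1 := by
    rw [Nat.card_eq_one_iff_exists]
    refine ⟨⟨0, by simp⟩, fun ⟨v, hv⟩ => Subtype.ext ?_⟩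
    by_contra hne
    exact (hA.2 v hne).ne' (Int.cast_eq_zero.1 hv)
  rw [hu, Nat.cast_one] at h
  exact h.congr fun z => by simp [latTheta]

/-- The shadow series over the vectors of value at least `n`, normalised. -/
theorem tendsto_shadow {A : Matrix (Fin n) (Fin n) ℤ} (hA : PosUnimodular A) {c : Fin n → ℤ}
    (hmin : ∀ x : Fin n → ℤ, (n : ℤ) ≤ val A ((2 : ℤ) • x + c)) :
    ∃ L : ℂ, Tendsto (fun z : ℍ => shadowTheta A c z * cexp (-(π * I * n / 4 * z))) atImInfty
      (𝓝 L) := by
  have hinj : Function.Injective fun x : Fin n → ℤ => (2 : ℤ) • x + c := fun x y h =>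
    funext fun i => by simpa using congrFun (add_right_cancel h) i
  have hs := ((summable_exp_val hA (a := 1 / 4) (by norm_num)).comp_injective hinj).mul_left
    (Real.exp (π * n / 4))
  refine ⟨_, (tendsto_tsum_exp
    (e := fun x : Fin n → ℤ => ((val A ((2 : ℤ) • x + c) : ℝ) - n) / 4)
    (fun x => by
      have : ((n : ℤ) : ℝ) ≤ val A ((2 : ℤ) • x + c) := Int.cast_le.2 (hmin x)
      push_cast at this
      linarith)
    (hs.congr fun x => by
      simp only [Function.comp_apply, ← Real.exp_add]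
      ring_nf)).congr fun z => ?_⟩
  rw [shadowTheta, ← tsum_mul_right]
  refine tsum_congr fun x => ?_
  rw [← Complex.exp_add]
  push_cast
  ring_nf

theorem card_sq_add_self_zero : Nat.card {k : ℤ // ((k : ℝ) ^ 2 + k) = 0} = 2 := by
  rw [Nat.card_congr (Equiv.subtypeEquivRight (q := fun k : ℤ => k ∈ ({0, -1} : Finset ℤ))
    fun k => ?_), Nat.card_eq_fintype_card, Fintype.card_coe]
  · rfl
  · rw [show (k : ℝ) ^ 2 + k = ((k ^ 2 + k : ℤ) : ℝ) by push_cast; ring, Int.cast_eq_zero,
      show k ^ 2 + k = k * (k + 1) by ring, mul_eq_zero]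
    simp [add_eq_zero_iff_eq_neg]

theorem tendsto_shadow_one (n : ℕ) :
    Tendsto (fun z : ℍ => shadowTheta (1 : Matrix (Fin n) (Fin n) ℤ) (fun _ => 1) z *
      cexp (-(π * I * n / 4 * z))) atImInfty (𝓝 (2 ^ n)) := by
  have hpos : ∀ k : ℤ, (0 : ℝ) ≤ (k : ℝ) ^ 2 + k := fun k => by
    rw [show (k : ℝ) ^ 2 + k = ((k ^ 2 + k : ℤ) : ℝ) by push_cast; ring]
    refine Int.cast_nonneg ?_
    rcases le_or_gt 0 k with h | h <;> nlinarith
  have hs : ∀ z : ℂ, 0 < z.im →
      Summable fun k : ℤ => ‖cexp (π * I * (((k : ℝ) ^ 2 + k : ℝ) : ℂ) * z)‖ := fun z hz => by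
    refine ((summable_jacobiTheta₂_term_iff (z / 2) z).2 hz).norm.congr fun k => ?_
    rw [jacobiTheta₂_term]
    push_cast
    ring_nf
  have h1 : Tendsto (fun z : ℍ => ∑' k : ℤ, cexp (π * I * (((k : ℝ) ^ 2 + k : ℝ) : ℂ) * z))
      atImInfty (𝓝 2) := by
    have h := tendsto_tsum_exp hpos ((hs I (by simp)).congr fun k => by
      rw [norm_cexp_gram, Complex.I_im, mul_one])
    rwa [card_sq_add_self_zero] at h
  refine (h1.pow n).congr fun z => ?_
  rw [← tsum_pi_pow (hs z z.im_pos), shadowTheta, ← tsum_mul_right]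
  refine tsum_congr fun v => ?_
  rw [← Complex.exp_add, ← Complex.exp_sum, val_one]
  congr 1
  push_cast
  simp only [Pi.add_apply, Pi.smul_apply, smul_eq_mul]
  push_cast
  rw [show ∀ X : ℂ, X + -(π * I * n / 4 * z) = X + ∑ _i : Fin n, -(π * I / 4 * z) from fun X => by
    rw [Finset.sum_const, Finset.card_fin, nsmul_eq_mul]; ring,
    Finset.mul_sum, Finset.sum_div, Finset.sum_mul, ← Finset.sum_add_distrib]
  exact Finset.sum_congr rfl fun i _ => by ring

theorem tendsto_vadd_one : Tendsto (fun z : ℍ => (1 : ℝ) +ᵥ z) atImInfty atImInfty := by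
  rw [atImInfty, tendsto_comap_iff]
  exact (tendsto_comap (f := UpperHalfPlane.im)).congr fun z => (UpperHalfPlane.vadd_im 1 z).symm

/-- A function invariant under `z ↦ z + 2` and `z ↦ -1/z` with limits at both cusps of the theta
group is constant. -/
theorem eq_of_thetaGroup {f : ℂ → ℂ} {L r : ℂ}
    (hfd : ∀ w : ℂ, 0 < w.im → DifferentiableAt ℂ f w) (hper : ∀ w, f (w + 2) = f w)
    (hinv : ∀ w : ℂ, 0 < w.im → f (-1 / w) = f w)
    (hl1 : Tendsto (fun w : ℍ => f w) atImInfty (𝓝 L))
    (hl3 : Tendsto (fun w : ℍ => f (1 + -1 / (w : ℂ))) atImInfty (𝓝 r)) {z : ℂ}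
    (hz : 0 < z.im) : f z = L := by
  have him1 : ∀ {w : ℂ}, 0 < w.im → 0 < (w + 1).im := fun hw => by simpa using hw
  have him2 : ∀ {w : ℂ}, 0 < w.im → 0 < (1 + -1 / w).im := fun hw => by
    simpa using im_neg_one_div_pos hw
  have hne : ∀ {w : ℂ}, 0 < w.im → w ≠ 0 := fun hw h => by simp [h] at hw
  have hl2 : Tendsto (fun w : ℍ => f ((w : ℂ) + 1)) atImInfty (𝓝 L) := by
    refine (hl1.comp tendsto_vadd_one).congr fun w => ?_
    simp [add_comm]
  -- the symmetric functions
  have hsym : ∀ (E : ℂ → ℂ → ℂ → ℂ), (∀ a b d, E b a d = E a b d) → (∀ a b d, E a d b = E a b d) →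
      Differentiable ℂ (fun p : ℂ × ℂ × ℂ => E p.1 p.2.1 p.2.2) →
      ∀ w : ℂ, 0 < w.im → E (f w) (f (w + 1)) (f (1 + -1 / w)) = E L L r := by
    intro E hab hbd hE w hw
    refine eq_of_invariant (g := fun u => E (f u) (f (u + 1)) (f (1 + -1 / u))) (fun u hu => ?_)
      (fun u hu => ?_) (fun u hu => ?_) ?_ hw
    · have hu0 := hne hu
      exact (hE _).comp u ((hfd u hu).prodMk (((hfd _ (him1 hu)).comp u (by fun_prop)).prodMk
        ((hfd _ (him2 hu)).comp u (by fun_prop (disch := assumption)))))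
    · have hu1 := him1 hu
      have hu0 := hne hu
      have hu10 := hne hu1
      have e1 : f (u + 1 + 1) = f u := by rw [add_assoc, one_add_one_eq_two, hper]
      have e2 : f (1 + -1 / (u + 1)) = f (1 + -1 / u) := by
        have hw' : 0 < (1 + -1 / (u + 1)).im := him2 hu1
        have e : -1 / (1 + -1 / (u + 1)) + 2 = 1 + -1 / u := by
          rw [show 1 + -1 / (u + 1) = u / (u + 1) by field_simp; ring, div_div_eq_mul_div]
          field_simp
          ring
        rw [← hinv _ hw', ← hper (-1 / (1 + -1 / (u + 1))), e]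
      simp only [e1, e2]
      exact hab _ _ _
    · have hu0 := hne hu
      have e1 : f (1 + -1 / (-1 / u)) = f (u + 1) := by
        congr 1
        field_simp
        ring
      simp only [hinv u hu, e1, show -1 / u + 1 = 1 + -1 / u by ring]
      exact hbd _ _ _
    · exact (hE.continuous.tendsto (L, L, r)).comp (hl1.prodMk_nhds (hl2.prodMk_nhds hl3))
  have hroot : ∀ w : ℂ, 0 < w.im → f w = L ∨ f w = r := fun w hw => by
    have a1 := hsym (fun a b d => a + b + d) (fun a b d => by ring) (fun a b d => by ring)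
      (by fun_prop) w hw
    have a2 := hsym (fun a b d => a * b + a * d + b * d) (fun a b d => by ring)
      (fun a b d => by ring) (by fun_prop) w hw
    have a3 := hsym (fun a b d => a * b * d) (fun a b d => by ring) (fun a b d => by ring)
      (by fun_prop) w hw
    have e : (f w - L) * (f w - L) * (f w - r) = 0 := by
      linear_combination (f w) ^ 2 * a1 - f w * a2 + a3
    simp only [mul_eq_zero, sub_eq_zero, or_self] at e
    exact e
  -- continuity
  have hconst : ∀ w : ℂ, 0 < w.im → f w = f z := fun w hw => by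
    have hU : IsPreconnected {u : ℂ | 0 < u.im} := (convex_halfSpace_im_gt 0).isPreconnected
    exact hU.constant_of_mapsTo ((Set.toFinite ({L, r} : Set ℂ)).isDiscrete)
      (fun u hu => (hfd u hu).continuousAt.continuousWithinAt)
      (fun u hu => by simpa using hroot u hu) hw hz
  exact tendsto_nhds_unique
    (tendsto_const_nhds.congr fun w : ℍ => (hconst w w.im_pos).symm) hl1

/-- The quotient of the theta series by that of `ℤⁿ`. -/
def quot (A : Matrix (Fin n) (Fin n) ℤ) (w : ℂ) : ℂ :=
  latTheta A w / latTheta (1 : Matrix (Fin n) (Fin n) ℤ) w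

variable {A : Matrix (Fin n) (Fin n) ℤ}

theorem differentiableAt_quot (hA : PosUnimodular A) {w : ℂ} (hw : 0 < w.im) :
    DifferentiableAt ℂ (quot A) w :=
  (differentiableAt_latTheta hA hw).div (differentiableAt_latTheta posUnimodular_one hw)
    (latTheta_one_ne_zero hw)

theorem quot_two_add (A : Matrix (Fin n) (Fin n) ℤ) (w : ℂ) : quot A (w + 2) = quot A w := by
  rw [quot, quot, latTheta_two_add, latTheta_two_add]

theorem inversion_factor_ne_zero {w : ℂ} (hw : 0 < w.im) (s : ℂ) : (-I * w) ^ s ≠ 0 := by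
  rw [ne_eq, cpow_eq_zero_iff, not_and_or]
  exact Or.inl (mul_ne_zero (neg_ne_zero.2 I_ne_zero) fun h => by simp [h] at hw)

theorem quot_inversion (hA : PosUnimodular A) {w : ℂ} (hw : 0 < w.im) :
    quot A (-1 / w) = quot A w := by
  rw [quot, quot, latTheta_inversion hA hw, latTheta_inversion posUnimodular_one hw,
    mul_div_mul_left _ _ (inversion_factor_ne_zero hw _)]

theorem quot_shadow (hA : PosUnimodular A) {c : Fin n → ℤ} (hc : Characteristic A c) {w : ℂ}
    (hw : 0 < w.im) : quot A (1 + -1 / w) =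
      shadowTheta A c w / shadowTheta (1 : Matrix (Fin n) (Fin n) ℤ) (fun _ => 1) w := by
  rw [quot, latTheta_shadow hA hc hw, latTheta_shadow posUnimodular_one characteristic_one hw,
    mul_div_mul_left _ _ (inversion_factor_ne_zero hw _)]

theorem tendsto_quot (hA : PosUnimodular A) :
    Tendsto (fun w : ℍ => quot A w) atImInfty (𝓝 1) := by
  have h := (tendsto_latTheta hA).div (tendsto_latTheta (posUnimodular_one (n := n))) one_ne_zero
  rw [div_one] at h
  exact h

theorem characteristic_two_smul_add {c : Fin n → ℤ} (hc : Characteristic A c) (x : Fin n → ℤ) :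
    Characteristic A ((2 : ℤ) • x + c) := fun y => by
  rw [add_dotProduct, smul_dotProduct, smul_eq_mul, add_sub_assoc]
  exact dvd_add (dvd_mul_right _ _) (hc y)

/-- **The theta series is that of `ℤⁿ`.** -/
theorem latTheta_eq_one (hA : PosUnimodular A)
    (hmin : ∀ c, Characteristic A c → (n : ℤ) ≤ val A c) {z : ℂ} (hz : 0 < z.im) :
    latTheta A z = latTheta (1 : Matrix (Fin n) (Fin n) ℤ) z := by
  obtain ⟨c, hc⟩ := IndefiniteUnimodular.exists_characteristic hA.1
  obtain ⟨L, hL⟩ := tendsto_shadow hA fun x => hmin _ (characteristic_two_smul_add hc x)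
  have hl3 := (hL.div (tendsto_shadow_one n) (by norm_num)).congr fun w : ℍ =>
    show _ = quot A (1 + -1 / (w : ℂ)) by
      rw [quot_shadow hA hc w.im_pos, Pi.div_apply,
        mul_div_mul_right _ _ (Complex.exp_ne_zero _)]
  exact (div_eq_one_iff_eq (latTheta_one_ne_zero hz)).1 (eq_of_thetaGroup
    (fun w hw => differentiableAt_quot hA hw) (quot_two_add A)
    (fun w hw => quot_inversion hA hw) (tendsto_quot hA) hl3 hz)

theorem card_units {A : Matrix (Fin n) (Fin n) ℤ} (hA : PosUnimodular A)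
    (h : ∀ z : ℂ, 0 < z.im → latTheta A z = latTheta (1 : Matrix (Fin n) (Fin n) ℤ) z) :
    2 * n ≤ Nat.card {v : Fin n → ℤ // val A v = 1} := by
  have key : ∀ B : Matrix (Fin n) (Fin n) ℤ, PosUnimodular B →
      Tendsto (fun z : ℍ => (latTheta B z - 1) * cexp (-(π * I * z))) atImInfty
        (𝓝 (Nat.card {v : Fin n → ℤ // val B v = 1} : ℂ)) := fun B hB => by
    have hpos : ∀ k : {v : Fin n → ℤ // v ≠ 0}, (0 : ℝ) ≤ (val B k : ℝ) - 1 := fun k => by
      have : (1 : ℝ) ≤ (val B k.1 : ℝ) := by exact_mod_cast (hB.2 k.1 k.2)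
      linarith
    have hs := ((summable_exp_val hB one_pos).comp_injective
      (i := (Subtype.val : {v : Fin n → ℤ // v ≠ 0} → _)) Subtype.val_injective).mul_left
        (Real.exp π)
    have ht := tendsto_tsum_exp hpos (hs.congr fun k => by
      simp only [Function.comp_apply, ← Real.exp_add]
      ring_nf)
    rw [Nat.card_congr
      ({ toFun := fun k => ⟨k.1.1, by
          have := k.2
          rw [sub_eq_zero] at this
          exact_mod_cast this⟩
         invFun := fun v => ⟨⟨v.1, fun e => by simpa [e] using v.2⟩, by simp [v.2]⟩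
         left_inv := fun k => rfl
         right_inv := fun v => rfl } :
        {k : {v : Fin n → ℤ // v ≠ 0} // (val B k : ℝ) - 1 = 0} ≃
          {v : Fin n → ℤ // val B v = 1})] at ht
    refine ht.congr fun z => ?_
    have hsum : Summable fun v : Fin n → ℤ => cexp (π * I * val B v * z) :=
      (summable_gramTerm hB.posDef z.im_pos).congr fun v => by rw [gramVal_toReal, ofReal_intCast]
    rw [latTheta, ← hsum.sum_add_tsum_subtype_compl ({0} : Finset _), Finset.sum_singleton,
      IndefiniteUnimodular.val_zero, Int.cast_zero, mul_zero, zero_mul, Complex.exp_zero,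
      add_sub_cancel_left, ← tsum_mul_right]
    rw [← (Equiv.subtypeEquivRight (p := fun v : Fin n → ℤ => v ∉ ({0} : Finset _))
      (q := fun v => v ≠ 0) fun v => by simp).tsum_eq]
    refine tsum_congr fun k => ?_
    rw [← Complex.exp_add]
    push_cast [Equiv.subtypeEquivRight_apply_coe]
    ring_nf
  have heq := tendsto_nhds_unique ((key A hA).congr fun z => by rw [h _ z.im_pos])
    (key _ posUnimodular_one)
  have : Finite {v : Fin n → ℤ // val (1 : Matrix (Fin n) (Fin n) ℤ) v = 1} :=
    (finite_val_eq posUnimodular_one 1).to_subtype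
  rw [Nat.cast_inj.1 heq]
  have hv : ∀ (i : Fin n) (e : ℤ), e = 1 ∨ e = -1 →
      val (1 : Matrix (Fin n) (Fin n) ℤ) (Pi.single i e) = 1 := fun i e he => by
    rw [val_one, Finset.sum_eq_single i (fun j _ hj => by simp [hj]) (by simp)]
    rcases he with rfl | rfl <;> simp
  refine le_of_eq_of_le ?_ (Nat.card_le_card_of_injective (Sum.elim
    (fun i => (⟨Pi.single i 1, hv i 1 (.inl rfl)⟩ :
      {v : Fin n → ℤ // val (1 : Matrix (Fin n) (Fin n) ℤ) v = 1}))
    fun i => ⟨Pi.single i (-1), hv i (-1) (.inr rfl)⟩) ?_)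
  · simp [two_mul]
  · rintro (i | i) (j | j) hij <;>
      simp only [Sum.elim_inl, Sum.elim_inr, Subtype.mk.injEq] at hij <;>
      have e := congrFun hij i <;>
      rcases eq_or_ne j i with rfl | hne <;> first | rfl | simp_all [Pi.single_apply, eq_comm]

/-- `2 n` vectors of value one make an orthonormal basis. -/
theorem iso_one_of_units {A : Matrix (Fin n) (Fin n) ℤ} (hA : PosUnimodular A)
    (h : 2 * n ≤ Nat.card {v : Fin n → ℤ // val A v = 1}) :
    Iso A (1 : Matrix (Fin n) (Fin n) ℤ) := by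
  classical
  obtain ⟨S, hS⟩ : ∃ S : Finset (Fin n → ℤ), ∀ v, v ∈ S ↔ val A v = 1 :=
    ⟨(finite_val_eq hA 1).toFinset, fun v => by simp⟩
  have hcard : 2 * n ≤ S.card := by
    rwa [Nat.card_congr (Equiv.subtypeEquivRight fun v => (hS v).symm), Nat.card_eq_fintype_card,
      Fintype.card_coe] at h
  obtain ⟨T, hT, hmax⟩ := (S.powerset.filter fun T : Finset (Fin n → ℤ) =>
    ∀ u ∈ T, ∀ v ∈ T, u ≠ v → u ⬝ᵥ (A *ᵥ v) = 0).exists_max_image Finset.card ⟨∅, by simp⟩
  rw [Finset.mem_filter, Finset.mem_powerset] at hT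
  have hneg : ∀ v, val A (-v) = val A v := fun v => by simp [val, Matrix.mulVec_neg]
  have hcover : S ⊆ T ∪ T.image Neg.neg := fun u hu => by
    by_contra hnot
    simp only [Finset.mem_union, Finset.mem_image, not_or, not_exists, not_and] at hnot
    have horth : ∀ t ∈ T, u ⬝ᵥ (A *ᵥ t) = 0 := fun t ht => by
      have hu1 := (hS u).1 hu
      have ht1 := (hS t).1 (hT.1 ht)
      have h1 := hA.2 (u + t) fun e => hnot.2 t ht (eq_neg_of_add_eq_zero_left e).symm
      have h2 := hA.2 (u + -t) fun e => hnot.1 (by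
        rw [add_neg_eq_zero.1 e]; exact ht)
      rw [IndefiniteUnimodular.val_add hA.1.1] at h1 h2
      rw [hneg, Matrix.mulVec_neg, dotProduct_neg] at h2
      omega
    have hins : insert u T ∈ S.powerset.filter fun T : Finset (Fin n → ℤ) =>
        ∀ u ∈ T, ∀ v ∈ T, u ≠ v → u ⬝ᵥ (A *ᵥ v) = 0 := by
      rw [Finset.mem_filter, Finset.mem_powerset]
      refine ⟨Finset.insert_subset hu hT.1, fun x hx y hy hxy => ?_⟩
      rcases Finset.mem_insert.1 hx with rfl | hx' <;> rcases Finset.mem_insert.1 hy with rfl | hy'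
      · exact absurd rfl hxy
      · exact horth y hy'
      · rw [IndefiniteUnimodular.dot_swap hA.1.1]
        exact horth x hx'
      · exact hT.2 x hx' y hy' hxy
    have := hmax _ hins
    rw [Finset.card_insert_of_notMem hnot.1] at this
    omega
  have hTn : Fintype.card (Fin n) ≤ Fintype.card T := by
    have := (Finset.card_le_card hcover).trans ((Finset.card_union_le _ _).trans
      (add_le_add le_rfl Finset.card_image_le))
    rw [Fintype.card_fin, Fintype.card_coe]
    omega
  obtain ⟨φ⟩ := Function.Embedding.nonempty_of_card_le hTn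
  obtain ⟨P, hP⟩ : ∃ P : Matrix (Fin n) (Fin n) ℤ, P = Matrix.of fun i j => (φ j).1 i := ⟨_, rfl⟩
  have hPAP : Pᵀ * A * P = 1 := by
    ext i j
    have e : (Pᵀ * A * P) i j = (φ i).1 ⬝ᵥ (A *ᵥ (φ j).1) := by
      rw [Matrix.mul_assoc, hP]
      rfl
    rw [e, Matrix.one_apply]
    split_ifs with hij
    · exact hij ▸ (hS _).1 (hT.1 (φ i).2)
    · exact hT.2 _ (φ i).2 _ (φ j).2 fun e => hij (φ.injective (Subtype.ext e))
  exact IndefiniteUnimodular.iso_of_isUnit_det (isUnit_det_of_left_inverse hPAP) hPAP.symm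

/-- **Elkies**: `ℤⁿ` is the only one all of whose characteristic vectors have value `≥ n`. -/
theorem iso_one_iff {A : Matrix (Fin n) (Fin n) ℤ} (hA : PosUnimodular A) :
    Iso A (1 : Matrix (Fin n) (Fin n) ℤ) ↔ ∀ c, Characteristic A c → (n : ℤ) ≤ val A c := by
  refine ⟨fun h c hc => ?_, fun h => iso_one_of_units hA
    (card_units hA fun z hz => latTheta_eq_one hA h hz)⟩
  obtain ⟨x, hx, hv⟩ := h.characteristic hc
  rw [← hv, val_one]
  calc (n : ℤ) = ∑ _i : Fin n, (1 : ℤ) := by simp
    _ ≤ _ := Finset.sum_le_sum fun i _ => by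
      have h1 := hx (Pi.single i 1)
      rw [Matrix.one_mulVec, dotProduct_single, mul_one, IndefiniteUnimodular.val_single,
        Matrix.one_apply_eq] at h1
      have : x i ≠ 0 := fun e => by rw [e] at h1; omega
      nlinarith [sq_pos_of_ne_zero this]

/-- Otherwise some characteristic vector has value at most `n - 8`. -/
theorem exists_short_characteristic {A : Matrix (Fin n) (Fin n) ℤ} (hA : PosUnimodular A)
    (h : ¬ Iso A (1 : Matrix (Fin n) (Fin n) ℤ)) : ∃ c, Characteristic A c ∧ val A c + 8 ≤ n := by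
  rw [iso_one_iff hA] at h
  push Not at h
  obtain ⟨c, hc, hlt⟩ := h
  refine ⟨c, hc, ?_⟩
  obtain ⟨t, ht⟩ := IndefiniteUnimodular.characteristic_mod_eight hA.1 hc
  rw [hA.posIndex_eq, hA.negIndex_eq, Fintype.card_fin, Nat.cast_zero, sub_zero] at ht
  omega

end FA.CharacteristicVectors

end
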