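import Fermat.Agent.HeckeFE.Poisson
import Mathlib.Analysis.Matrix.Order
import Mathlib.Analysis.Complex.LocallyUniformLimit
import Mathlib.Analysis.Complex.UpperHalfPlane.Topology

/-!
# The theta series of a positive Gram matrix

`∑ exp (π i z vᵀ G v)` over integer vectors, for a positive definite real matrix `G`: holomorphy,
the inversion to the inverse matrix, and the leading coefficient at infinity.
-/

set_option autoImplicit false

noncomputable section

namespace FA.CharacteristicVectors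

open Complex Matrix Filter
open UpperHalfPlane hiding I
open scoped Real Topology

variable {ι : Type*} [Fintype ι] [DecidableEq ι]

/-- `vᵀ G v` at an integer vector. -/
def gramVal (G : Matrix ι ι ℝ) (v : ι → ℤ) : ℝ := HeckeFE.ofInt v ⬝ᵥ G *ᵥ HeckeFE.ofInt v

/-- The theta series. -/
def gramTheta (G : Matrix ι ι ℝ) (z : ℂ) : ℂ := ∑' v : ι → ℤ, cexp (π * I * gramVal G v * z)

omit [DecidableEq ι] in
theorem gramVal_nonneg {G : Matrix ι ι ℝ} (hG : G.PosDef) (v : ι → ℤ) : 0 ≤ gramVal G v := by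
  simpa [gramVal] using hG.posSemidef.dotProduct_mulVec_nonneg (HeckeFE.ofInt v)

theorem exists_gram_sqrt {G : Matrix ι ι ℝ} (hG : G.PosDef) :
    ∃ L : Matrix ι ι ℝ, Lᵀ * L = G ∧ |L.det| = √G.det := by
  open scoped MatrixOrder in
  obtain ⟨L, hL⟩ := CStarAlgebra.nonneg_iff_eq_star_mul_self.mp hG.posSemidef.nonneg
  rw [Matrix.star_eq_conjTranspose, Matrix.conjTranspose_eq_transpose_of_trivial] at hL
  refine ⟨L, hL.symm, ?_⟩
  rw [hL, Matrix.det_mul, Matrix.det_transpose, Real.sqrt_mul_self_eq_abs]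

omit [DecidableEq ι] in
theorem gauss_gram {G L : Matrix ι ι ℝ} (hL : Lᵀ * L = G) (c : ℝ) (v : ι → ℤ) :
    HeckeFE.gauss (c • L) (HeckeFE.ofInt v) = Real.exp (-(π * c ^ 2 * gramVal G v)) := by
  have h : ∑ i, ((c • L) *ᵥ HeckeFE.ofInt v) i ^ 2 = c ^ 2 * gramVal G v := by
    rw [gramVal, ← hL, ← Matrix.mulVec_mulVec, Matrix.dotProduct_mulVec,
      Matrix.vecMul_transpose]
    simp only [dotProduct, Finset.mul_sum, Matrix.smul_mulVec, Pi.smul_apply, smul_eq_mul]
    exact Finset.sum_congr rfl fun i _ => by ring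
  rw [HeckeFE.gauss, h]
  ring_nf

theorem summable_exp_gram {G : Matrix ι ι ℝ} (hG : G.PosDef) {a : ℝ} (ha : 0 < a) :
    Summable fun v : ι → ℤ => Real.exp (-(π * a * gramVal G v)) := by
  obtain ⟨L, hL, hdet⟩ := exists_gram_sqrt hG
  have hs : √a ≠ 0 := (Real.sqrt_pos.2 ha).ne'
  have hu : IsUnit (√a • L).det := by
    rw [Matrix.det_smul, isUnit_iff_ne_zero]
    refine mul_ne_zero (pow_ne_zero _ hs) fun h => ?_
    rw [h, abs_zero] at hdet
    exact (Real.sqrt_pos.2 hG.det_pos).ne hdet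
  refine (HeckeFE.summable_gauss (L := √a • L) (N := ((√a • L)⁻¹)ᵀ) (by
    rw [Matrix.transpose_transpose, Matrix.nonsing_inv_mul _ hu])).congr fun v => ?_
  rw [gauss_gram hL, Real.sq_sqrt ha.le]

theorem norm_cexp_gram (q : ℝ) (z : ℂ) :
    ‖cexp (π * I * q * z)‖ = Real.exp (-(π * z.im * q)) := by
  rw [Complex.norm_exp]
  congr 1
  simp
  ring

theorem summable_gramTerm {G : Matrix ι ι ℝ} (hG : G.PosDef) {z : ℂ} (hz : 0 < z.im) :
    Summable fun v : ι → ℤ => cexp (π * I * gramVal G v * z) :=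
  Summable.of_norm ((summable_exp_gram hG hz).congr fun v => (norm_cexp_gram _ z).symm)

theorem differentiableAt_gramTheta {G : Matrix ι ι ℝ} (hG : G.PosDef) {z : ℂ} (hz : 0 < z.im) :
    DifferentiableAt ℂ (gramTheta G) z := by
  have hU : IsOpen {w : ℂ | z.im / 2 < w.im} := isOpen_lt continuous_const Complex.continuous_im
  refine (differentiableOn_tsum_of_summable_norm (summable_exp_gram hG (half_pos hz))
    (fun _ => by fun_prop) hU fun v w hw => ?_).differentiableAt
    (hU.mem_nhds (show z.im / 2 < z.im by linarith))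
  rw [norm_cexp_gram]
  exact Real.exp_le_exp.2 (neg_le_neg (mul_le_mul_of_nonneg_right
    (mul_le_mul_of_nonneg_left (le_of_lt hw) Real.pi_pos.le) (gramVal_nonneg hG v)))

omit [DecidableEq ι] in
theorem gramTheta_ray (G : Matrix ι ι ℝ) (t : ℝ) :
    gramTheta G (t * I) =
      ((∑' v : ι → ℤ, Real.exp (-(π * t * gramVal G v)) : ℝ) : ℂ) := by
  rw [Complex.ofReal_tsum]
  refine tsum_congr fun v => ?_
  rw [Complex.ofReal_exp]
  congr 1
  push_cast
  linear_combination ((π : ℂ) * t * (gramVal G v : ℂ)) * I_sq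

theorem gram_poisson {G : Matrix ι ι ℝ} (hG : G.PosDef) {t : ℝ} (ht : 0 < t) :
    ∑' v : ι → ℤ, Real.exp (-(π * t⁻¹ * gramVal G v)) =
      √t ^ Fintype.card ι / √G.det * ∑' m : ι → ℤ, Real.exp (-(π * t * gramVal G⁻¹ m)) := by
  obtain ⟨L, hL, hdet⟩ := exists_gram_sqrt hG
  have hs : √t⁻¹ ≠ 0 := (Real.sqrt_pos.2 (inv_pos.2 ht)).ne'
  have hu : IsUnit L.det := isUnit_iff_ne_zero.2 fun h => by
    rw [h, abs_zero] at hdet
    exact (Real.sqrt_pos.2 hG.det_pos).ne hdet
  have hN : ((L⁻¹)ᵀ)ᵀ * (L⁻¹)ᵀ = G⁻¹ := by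
    rw [Matrix.transpose_transpose, Matrix.transpose_nonsing_inv, ← hL, Matrix.mul_inv_rev]
  have h := HeckeFE.gauss_poisson (L := √t⁻¹ • L) (N := (√t⁻¹)⁻¹ • (L⁻¹)ᵀ) (by
    rw [Matrix.transpose_smul, Matrix.transpose_transpose, Matrix.smul_mul, Matrix.mul_smul,
      smul_smul, inv_mul_cancel₀ hs, Matrix.nonsing_inv_mul _ hu, one_smul])
  simp only [gauss_gram hL, gauss_gram hN, Matrix.det_smul, abs_mul, hdet, Real.sqrt_inv,
    inv_pow, inv_inv, Real.sq_sqrt ht.le, abs_inv, abs_pow, abs_of_nonneg (Real.sqrt_nonneg t),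
    mul_inv] at h
  rw [h, div_eq_mul_inv]

theorem im_neg_one_div_pos {w : ℂ} (hw : 0 < w.im) : 0 < (-1 / w).im := by
  have h0 : w ≠ 0 := fun h => by simp [h] at hw
  rw [neg_div, one_div, Complex.neg_im, Complex.inv_im, neg_div, neg_neg]
  exact div_pos hw (Complex.normSq_pos.2 h0)

/-- **Inversion.** -/
theorem gramTheta_inversion {G : Matrix ι ι ℝ} (hG : G.PosDef) {z : ℂ} (hz : 0 < z.im) :
    gramTheta G (-1 / z) = (((√G.det)⁻¹ : ℝ) : ℂ) *
      ((-I * z) ^ ((Fintype.card ι : ℂ) / 2) * gramTheta G⁻¹ z) := by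
  set U : Set ℂ := {w | 0 < w.im}
  have hUo : IsOpen U := isOpen_lt continuous_const Complex.continuous_im
  set F : ℂ → ℂ := fun w => gramTheta G (-1 / w) - (((√G.det)⁻¹ : ℝ) : ℂ) *
    ((-I * w) ^ ((Fintype.card ι : ℂ) / 2) * gramTheta G⁻¹ w) with hF
  have hd : DifferentiableOn ℂ F U := fun w (hw : 0 < w.im) => by
    have h0 : w ≠ 0 := fun h => by simp [h] at hw
    refine DifferentiableAt.differentiableWithinAt (DifferentiableAt.sub ?_
      ((DifferentiableAt.mul (DifferentiableAt.cpow (by fun_prop) (by fun_prop) (Or.inl ?_))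
        (differentiableAt_gramTheta hG.inv hw)).const_mul _))
    · exact (differentiableAt_gramTheta hG (im_neg_one_div_pos hw)).comp w
        ((differentiableAt_const _).div differentiableAt_id h0)
    · simpa using hw
  have hray : ∀ t : ℝ, 0 < t → F (t * I) = 0 := fun t ht => by
    have e1 : (-1 : ℂ) / (t * I) = ((t⁻¹ : ℝ) : ℂ) * I := by
      have ht0 : (t : ℂ) ≠ 0 := ofReal_ne_zero.2 ht.ne'
      rw [div_eq_iff (mul_ne_zero ht0 I_ne_zero), ofReal_inv, mul_mul_mul_comm,
        inv_mul_cancel₀ ht0, one_mul, I_mul_I]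
    have e2 : (-I * ((t : ℂ) * I)) ^ ((Fintype.card ι : ℂ) / 2) =
        ((√t ^ Fintype.card ι : ℝ) : ℂ) := by
      rw [show -I * ((t : ℂ) * I) = ((t : ℝ) : ℂ) by linear_combination -(t : ℂ) * I_sq,
        show (Fintype.card ι : ℂ) / 2 = (((Fintype.card ι : ℝ) / 2 : ℝ) : ℂ) by push_cast; ring,
        ← Complex.ofReal_cpow ht.le, Real.sqrt_eq_rpow, ← Real.rpow_natCast (t ^ (1 / 2 : ℝ)),
        ← Real.rpow_mul ht.le]
      ring_nf
    simp only [hF]
    rw [e1, gramTheta_ray, gramTheta_ray, e2, gram_poisson hG ht]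
    push_cast
    ring
  have hI : Tendsto (fun t : ℝ => (t : ℂ) * I) (𝓝[≠] 1) (𝓝[≠] I) := by
    refine tendsto_nhdsWithin_iff.2 ⟨?_, eventually_nhdsWithin_of_forall fun t ht h => ht ?_⟩
    · have hc : Continuous fun t : ℝ => (t : ℂ) * I := by fun_prop
      simpa using (hc.tendsto 1).mono_left nhdsWithin_le_nhds
    · simpa using congrArg Complex.im (Set.mem_singleton_iff.1 h)
  have hfr : ∃ᶠ w in 𝓝[≠] I, F w = 0 := by
    refine hI.frequently (Eventually.frequently ?_)
    filter_upwards [nhdsWithin_le_nhds (lt_mem_nhds (zero_lt_one' ℝ))] with t ht using hray t ht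
  exact sub_eq_zero.1 ((hd.analyticOnNhd hUo).eqOn_zero_of_preconnected_of_frequently_eq_zero
    (convex_halfSpace_im_gt 0).isPreconnected (show I ∈ U by simp [U]) hfr hz)

/-- At infinity only the exponents zero survive. -/
theorem tendsto_tsum_exp {κ : Type*} {e : κ → ℝ} (he : ∀ k, 0 ≤ e k)
    (hs : Summable fun k => Real.exp (-(π * e k))) :
    Tendsto (fun z : ℍ => ∑' k, cexp (π * I * e k * z)) atImInfty
      (𝓝 (Nat.card {k // e k = 0} : ℂ)) := by
  classical
  have hfin : {k | e k = 0}.Finite := by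
    have h := (hs.tendsto_cofinite_zero.eventually (gt_mem_nhds (zero_lt_one' ℝ)))
    rw [eventually_cofinite] at h
    refine h.subset fun k (hk : e k = 0) => ?_
    simp [hk]
  have hlim : Tendsto (fun z : ℍ => ∑' k, cexp (π * I * e k * z)) atImInfty
      (𝓝 (∑' k, if e k = 0 then (1 : ℂ) else 0)) := by
    refine tendsto_tsum_of_dominated_convergence hs (fun k => ?_) ?_
    · split_ifs with hk
      · refine tendsto_nhds_of_eventually_eq (Eventually.of_forall fun z => ?_)
        simp [hk]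
      · rw [tendsto_zero_iff_norm_tendsto_zero]
        simp only [norm_cexp_gram, UpperHalfPlane.coe_im]
        refine Real.tendsto_exp_neg_atTop_nhds_zero.comp ?_
        exact (Tendsto.const_mul_atTop Real.pi_pos tendsto_comap).atTop_mul_const
          (lt_of_le_of_ne (he k) (Ne.symm hk))
    · filter_upwards [(atImInfty_mem _).2 ⟨1, fun z hz => hz⟩] with z hz k
      rw [norm_cexp_gram]
      refine Real.exp_le_exp.2 (neg_le_neg ?_)
      nlinarith [mul_le_mul_of_nonneg_right (show (1 : ℝ) ≤ (z : ℂ).im from hz)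
        (mul_nonneg Real.pi_pos.le (he k))]
  convert hlim using 2
  rw [tsum_eq_sum (s := hfin.toFinset) fun k hk => if_neg (by simpa using hk),
    Finset.sum_congr rfl fun k hk => if_pos (by simpa using hk), Finset.sum_const, nsmul_one,
    ← Nat.card_eq_card_finite_toFinset hfin]
  rfl

end FA.CharacteristicVectors

end
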