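import Fermat.Agent.CharacteristicVectors.Elkies
import Fermat.Agent.Root.SummaryVenkov

/-!
# Positive unimodular forms in at most nine variables

Up to seven variables only the sum of squares, in eight also `E₈`, in nine also `E₈ ⊕ ⟨1⟩`.
-/

set_option autoImplicit false

noncomputable section

namespace FA.CharacteristicVectors

open Matrix
open IndefiniteUnimodular (val Characteristic Iso EvenForm dsum line)

theorem PosUnimodular.iso {ι κ : Type*} [Fintype ι] [DecidableEq ι] [Fintype κ] [DecidableEq κ]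
    {A : Matrix ι ι ℤ} {B : Matrix κ κ ℤ} (hA : PosUnimodular A) (h : Iso A B) :
    PosUnimodular B := by
  refine ⟨h.unimodular hA.1, fun x hx => ?_⟩
  obtain ⟨P, Q, h1, h2, rfl⟩ := h
  rw [IndefiniteUnimodular.val_congr]
  refine hA.2 _ fun e => hx ?_
  have := congrArg (fun y => Q *ᵥ y) e
  simpa [Matrix.mulVec_mulVec, h2] using this

theorem eq_zero_of_val {n : ℕ} {A : Matrix (Fin n) (Fin n) ℤ} (hA : PosUnimodular A)
    {x : Fin n → ℤ} (h : val A x = 0) : x = 0 := by
  by_contra hne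
  exact (hA.2 x hne).ne' h

theorem iso_one_of_rank_le_seven {n : ℕ} (hn : n ≤ 7) {A : Matrix (Fin n) (Fin n) ℤ}
    (hA : PosUnimodular A) : Iso A (1 : Matrix (Fin n) (Fin n) ℤ) := by
  by_contra h
  obtain ⟨c, -, hle⟩ := exists_short_characteristic hA h
  have := hA.val_nonneg c
  omega

theorem iso_e8_of_even {A : Matrix (Fin 8) (Fin 8) ℤ} (hA : PosUnimodular A) (he : EvenForm A) :
    Iso A FA.Summary.e8Gram := by
  obtain ⟨U, hU, hUA⟩ := FA.Summary.eightLattice_unique (P := A)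
    (UnimodularTheta.IsEvenUnimodular.of_isUnit hA.1.1.eq
      ((IndefiniteUnimodular.evenForm_iff_diag hA.1.1).1 he) (fun v hv => hA.2 v hv)
      ((isUnit_iff_isUnit_det _).2 hA.1.2))
  exact IndefiniteUnimodular.iso_of_isUnit_det ((isUnit_iff_isUnit_det U).1 hU) hUA.symm

theorem rank_eight {A : Matrix (Fin 8) (Fin 8) ℤ} (hA : PosUnimodular A) :
    Iso A (1 : Matrix (Fin 8) (Fin 8) ℤ) ∨ Iso A FA.Summary.e8Gram := by
  by_cases h : Iso A (1 : Matrix (Fin 8) (Fin 8) ℤ)
  · exact .inl h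
  obtain ⟨c, hc, hle⟩ := exists_short_characteristic hA h
  have h0 : c = 0 := eq_zero_of_val hA (le_antisymm (by omega) (hA.val_nonneg c))
  subst h0
  refine .inr (iso_e8_of_even hA fun x => even_iff_two_dvd.2 ?_)
  simpa using hc x

theorem rank_nine {A : Matrix (Fin 9) (Fin 9) ℤ} (hA : PosUnimodular A) :
    Iso A (1 : Matrix (Fin 9) (Fin 9) ℤ) ∨ Iso A (dsum (line 1) FA.Summary.e8Gram) := by
  by_cases h : Iso A (1 : Matrix (Fin 9) (Fin 9) ℤ)
  · exact .inl h
  obtain ⟨c, hc, hle⟩ := exists_short_characteristic hA h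
  obtain ⟨t, ht⟩ := IndefiniteUnimodular.characteristic_mod_eight hA.1 hc
  rw [hA.posIndex_eq, hA.negIndex_eq, Fintype.card_fin] at ht
  have hnn := hA.val_nonneg c
  push_cast at ht hle
  have h1 : val A c = 1 := by omega
  have hprim : Reduction.Primitive c := fun g hg => by
    refine isUnit_of_dvd_one ?_
    rw [← h1]
    show g ∣ ∑ i, c i * (A *ᵥ c) i
    exact Finset.dvd_sum fun i _ => (hg i).mul_right _
  obtain ⟨S, hS, hiso⟩ := IndefiniteUnimodular.exists_split_line hA.1 hprim (.inl rfl) h1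
  have hSp : PosUnimodular S := ⟨hS, fun y hy => by
    have := (hA.iso hiso).2 (Sum.elim 0 y) fun e => hy (funext fun i => by
      simpa using congrFun e (Sum.inr i))
    simpa [IndefiniteUnimodular.val_dsum] using this⟩
  obtain ⟨z, hz, hzv⟩ := hiso.characteristic hc
  obtain ⟨z₀, z₁, rfl⟩ : ∃ z₀ z₁, z = Sum.elim z₀ z₁ := ⟨_, _, (Sum.elim_comp_inl_inr z).symm⟩
  rw [IndefiniteUnimodular.val_dsum, IndefiniteUnimodular.val_line, h1] at hzv
  have hodd : z₀ 0 ≠ 0 := fun e => by
    have := hz (Sum.elim ![1] 0)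
    rw [IndefiniteUnimodular.val_dsum, IndefiniteUnimodular.val_line] at this
    simp [dsum, line, dotProduct, Matrix.mulVec, e] at this
  have hz1 : z₁ = 0 := eq_zero_of_val hSp (le_antisymm (by
    nlinarith [sq_pos_of_ne_zero hodd]) (hSp.val_nonneg z₁))
  subst hz1
  refine .inr (hiso.trans (IndefiniteUnimodular.Iso.dsum (Iso.refl _) (iso_e8_of_even hSp
    fun y => even_iff_two_dvd.2 ?_)))
  have := hz (Sum.elim 0 y)
  rw [IndefiniteUnimodular.val_dsum, IndefiniteUnimodular.val_line] at this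
  simpa [dsum, line, dotProduct, Matrix.mulVec] using this

theorem not_iso_one_e8 : ¬ Iso (1 : Matrix (Fin 8) (Fin 8) ℤ) FA.Summary.e8Gram := fun h => by
  have := (h.evenForm_iff.2 IndefiniteUnimodular.evenForm_e8) (Pi.single 0 1)
  simp at this

theorem not_iso_one_line_e8 :
    ¬ Iso (1 : Matrix (Fin 9) (Fin 9) ℤ) (dsum (line 1) FA.Summary.e8Gram) := fun h => by
  have hc : Characteristic (dsum (line 1) FA.Summary.e8Gram) (Sum.elim ![1] 0) := fun x => by
    obtain ⟨x₀, x₁, rfl⟩ : ∃ x₀ x₁, x = Sum.elim x₀ x₁ := ⟨_, _, (Sum.elim_comp_inl_inr x).symm⟩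
    rw [IndefiniteUnimodular.val_dsum, IndefiniteUnimodular.val_line,
      show Sum.elim ![(1 : ℤ)] 0 ⬝ᵥ (dsum (line 1) FA.Summary.e8Gram *ᵥ Sum.elim x₀ x₁) = x₀ 0 by
        simp [dsum, line, dotProduct, Matrix.mulVec],
      show x₀ 0 - (1 * x₀ 0 ^ 2 + val FA.Summary.e8Gram x₁) =
        -(x₀ 0 * (x₀ 0 - 1)) - val FA.Summary.e8Gram x₁ by ring]
    exact dvd_sub (dvd_neg.2 (even_iff_two_dvd.1 (Int.even_mul_pred_self _)))
      (even_iff_two_dvd.1 (IndefiniteUnimodular.evenForm_e8 x₁))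
  obtain ⟨z, hz, hv⟩ := h.symm.characteristic hc
  have := (iso_one_iff posUnimodular_one).1 (Iso.refl _) z hz
  rw [hv] at this
  simp [IndefiniteUnimodular.val_dsum, IndefiniteUnimodular.val_line] at this

/-- The negative definite form of the criterion. -/
theorem iso_neg_one_of_characteristic {n : ℕ} {A : Matrix (Fin n) (Fin n) ℤ}
    (hA : IndefiniteUnimodular.Unimodular A) (hneg : ∀ x, x ≠ 0 → val A x < 0)
    (h : ∀ c, Characteristic A c → val A c ≤ -(n : ℤ)) :
    Iso A (-1 : Matrix (Fin n) (Fin n) ℤ) := by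
  have hp : PosUnimodular (-A) := by
    refine ⟨⟨hA.1.neg, ?_⟩, fun x hx => ?_⟩
    · rw [det_neg]
      exact (isUnit_one.neg.pow _).mul hA.2
    · rw [IndefiniteUnimodular.val_neg]
      exact neg_pos.2 (hneg x hx)
  obtain ⟨P, Q, h1, h2, h3⟩ := (iso_one_iff hp).2 fun c hc => by
    have hc' : Characteristic A c := fun x => by
      have := hc x
      rw [IndefiniteUnimodular.val_neg, Matrix.neg_mulVec, dotProduct_neg,
        ← neg_sub_neg, neg_neg, neg_neg] at this
      exact (dvd_sub_comm).1 this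
    rw [IndefiniteUnimodular.val_neg]
    linarith [h c hc']
  exact ⟨P, Q, h1, h2, by rw [h3, Matrix.mul_neg, Matrix.neg_mul, neg_neg]⟩

end FA.CharacteristicVectors

end
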