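import Fermat.Agent.CharacteristicVectors.GramTheta
import Fermat.Agent.IndefiniteUnimodular.Classification

/-!
# The shadow

For a positive unimodular integral `A` the theta series has `θ (-1/z) = (-i z) ^ (n/2) θ (z)`, and
`θ (1 - 1/z)` is `(-i z) ^ (n/2)` times the series over the characteristic vectors `w` of
`exp (π i z (w·w) / 4)`.
-/

set_option autoImplicit false
set_option linter.unusedSectionVars false

noncomputable section

namespace FA.CharacteristicVectors

open Complex Matrix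
open IndefiniteUnimodular (val Unimodular Characteristic)
open scoped Real

variable {ι : Type*} [Fintype ι] [DecidableEq ι]

/-- A positive unimodular integral matrix. -/
def PosUnimodular (A : Matrix ι ι ℤ) : Prop := Unimodular A ∧ ∀ x, x ≠ 0 → 0 < val A x

/-- The real matrix. -/
def toReal (A : Matrix ι ι ℤ) : Matrix ι ι ℝ := A.map fun k : ℤ => (k : ℝ)

/-- The theta series of the lattice. -/
def latTheta (A : Matrix ι ι ℤ) (z : ℂ) : ℂ := ∑' v : ι → ℤ, cexp (π * I * val A v * z)

/-- The series over the characteristic vectors congruent to `c`. -/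
def shadowTheta (A : Matrix ι ι ℤ) (c : ι → ℤ) (z : ℂ) : ℂ :=
  ∑' x : ι → ℤ, cexp (π * I * (val A ((2 : ℤ) • x + c) : ℂ) / 4 * z)

variable {A : Matrix ι ι ℤ}

theorem gramVal_toReal (A : Matrix ι ι ℤ) (v : ι → ℤ) :
    gramVal (toReal A) v = (val A v : ℝ) := by
  simp [gramVal, toReal, val, HeckeFE.ofInt, dotProduct, Matrix.mulVec]

theorem gramTheta_toReal (A : Matrix ι ι ℤ) (z : ℂ) : gramTheta (toReal A) z = latTheta A z := by
  simp only [gramTheta, latTheta, gramVal_toReal, ofReal_intCast]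

theorem toReal_mul (A B : Matrix ι ι ℤ) : toReal (A * B) = toReal A * toReal B :=
  Matrix.map_mul (f := Int.castRingHom ℝ)

theorem det_toReal (A : Matrix ι ι ℤ) : (toReal A).det = (A.det : ℝ) :=
  ((Int.castRingHom ℝ).map_det A).symm

theorem PosUnimodular.val_nonneg (hA : PosUnimodular A) (x : ι → ℤ) : 0 ≤ val A x := by
  rcases eq_or_ne x 0 with rfl | h
  · simp
  · exact (hA.2 x h).le

theorem PosUnimodular.negIndex_eq (hA : PosUnimodular A) :
    IndefiniteUnimodular.negIndex A = 0 := by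
  by_contra hne
  obtain ⟨x, hx⟩ := (IndefiniteUnimodular.negIndex_pos_iff hA.1.1).1 (Nat.pos_of_ne_zero hne)
  exact absurd (hA.val_nonneg x) (not_le.2 hx)

theorem PosUnimodular.posIndex_eq (hA : PosUnimodular A) :
    IndefiniteUnimodular.posIndex A = Fintype.card ι := by
  have := IndefiniteUnimodular.posIndex_add_negIndex hA.1
  rwa [hA.negIndex_eq, add_zero] at this

theorem PosUnimodular.posDef (hA : PosUnimodular A) : (toReal A).PosDef := by
  obtain ⟨m, w, hw⟩ := IndefiniteUnimodular.exists_ratDiag hA.1.1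
  have hw0 := hw.weight_ne_zero hA.1
  have hneg := hA.negIndex_eq
  rw [hw.negIndex_eq, Finset.card_eq_zero, Finset.filter_eq_empty_iff] at hneg
  obtain ⟨e⟩ := hw.equivalent
  refine Matrix.PosDef.of_dotProduct_mulVec_pos ?_ fun x hx => ?_
  · ext i j
    simp [toReal, hA.1.1.apply i j]
  · have he := e.map_app x
    rw [QuadraticMap.weightedSumSquares_apply, IndefiniteUnimodular.realForm_apply] at he
    rw [star_trivial, toReal, ← he]
    obtain ⟨i, hi⟩ : ∃ i, e x i ≠ 0 := by
      by_contra hne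
      push Not at hne
      exact hx (e.toLinearEquiv.map_eq_zero_iff.1 (funext hne))
    have hpos : ∀ j, 0 < w j := fun j =>
      lt_of_le_of_ne (not_lt.1 (hneg (Finset.mem_univ j))) (hw0 j).symm
    refine Finset.sum_pos' (fun j _ => ?_) ⟨i, Finset.mem_univ i, ?_⟩
    · exact smul_nonneg (Rat.cast_nonneg.2 (hpos j).le) (mul_self_nonneg _)
    · exact smul_pos (Rat.cast_pos.2 (hpos i)) (mul_self_pos.2 hi)

theorem PosUnimodular.det_eq (hA : PosUnimodular A) : A.det = 1 := by
  have h := hA.posDef.det_pos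
  rw [det_toReal] at h
  rcases Int.isUnit_iff.1 hA.1.2 with e | e
  · exact e
  · rw [e] at h
    norm_num at h

/-- Multiplication by a matrix of unit determinant. -/
def mulVecEquiv (A : Matrix ι ι ℤ) (hA : IsUnit A.det) : (ι → ℤ) ≃ (ι → ℤ) where
  toFun v := A *ᵥ v
  invFun v := A⁻¹ *ᵥ v
  left_inv v := by simp [Matrix.mulVec_mulVec, Matrix.nonsing_inv_mul _ hA]
  right_inv v := by simp [Matrix.mulVec_mulVec, Matrix.mul_nonsing_inv _ hA]

theorem gramVal_inv_of_eq {G : Matrix ι ι ℝ} (hG : IsUnit G.det) (m : ι → ℤ)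
    (u : ι → ℝ) (hu : HeckeFE.ofInt m = G *ᵥ u) : gramVal G⁻¹ m = u ⬝ᵥ G *ᵥ u := by
  rw [gramVal, hu, Matrix.mulVec_mulVec u G⁻¹ G, nonsing_inv_mul _ hG, Matrix.one_mulVec,
    dotProduct_comm]

theorem ofInt_mulVec (B : Matrix ι ι ℤ) (x : ι → ℤ) :
    HeckeFE.ofInt (B *ᵥ x) = toReal B *ᵥ HeckeFE.ofInt x := by
  funext i
  simp [toReal, Matrix.mulVec, dotProduct, HeckeFE.ofInt]

/-- **Inversion.** -/
theorem latTheta_inversion (hA : PosUnimodular A) {z : ℂ} (hz : 0 < z.im) :
    latTheta A (-1 / z) = (-I * z) ^ ((Fintype.card ι : ℂ) / 2) * latTheta A z := by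
  have hd : (toReal A).det = 1 := by rw [det_toReal, hA.det_eq, Int.cast_one]
  rw [← gramTheta_toReal, gramTheta_inversion hA.posDef hz, hd, Real.sqrt_one, inv_one,
    ofReal_one, one_mul]
  congr 1
  rw [gramTheta, latTheta, ← (mulVecEquiv A hA.1.2).tsum_eq]
  refine tsum_congr fun v => ?_
  simp only [mulVecEquiv, Equiv.coe_fn_mk]
  rw [gramVal_inv_of_eq (by rw [hd]; exact isUnit_one) _ (HeckeFE.ofInt v)
    (ofInt_mulVec A v), ← gramVal, gramVal_toReal, ofReal_intCast]

theorem exp_pi_int (k : ℤ) : cexp (π * I * k) = if Even k then 1 else -1 := by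
  rw [mul_comm, Complex.exp_int_mul, Complex.exp_pi_mul_I]
  split_ifs with h
  · exact h.neg_one_zpow
  · exact (Int.not_even_iff_odd.1 h).neg_one_zpow

theorem two_dvd_val_sub (hA : Unimodular A) (v : ι → ℤ) : 2 ∣ v ⬝ᵥ (fun i => A i i) - val A v := by
  obtain ⟨c', hc'⟩ := IndefiniteUnimodular.exists_characteristic hA
  have hdiag : ∀ i, 2 ∣ (A *ᵥ c') i - A i i := fun i => by
    have := hc' (Pi.single i 1)
    rw [IndefiniteUnimodular.dot_swap hA.1, IndefiniteUnimodular.val_single,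
      single_dotProduct, one_mul] at this
    exact this
  have e : v ⬝ᵥ (fun i => A i i) - val A v =
      (c' ⬝ᵥ (A *ᵥ v) - val A v) - ∑ i, v i * ((A *ᵥ c') i - A i i) := by
    rw [IndefiniteUnimodular.dot_swap hA.1 c' v]
    simp only [dotProduct, mul_sub, Finset.sum_sub_distrib]
    ring
  rw [e]
  exact dvd_sub (hc' v) (Finset.dvd_sum fun i _ => (hdiag i).mul_left _)

/-- **The shadow of an odd lattice**, for the distinguished characteristic vector. -/
theorem latTheta_shadow_odd (hA : PosUnimodular A) {i₀ : ι} (hi : Odd (A i₀ i₀)) {c : ι → ℤ}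
    (hc : A *ᵥ c = fun i => A i i) {z : ℂ} (hz : 0 < z.im) :
    latTheta A (1 + -1 / z) = (-I * z) ^ ((Fintype.card ι : ℂ) / 2) * shadowTheta A c z := by
  obtain ⟨a, ha⟩ : ∃ a, a = fun i => A i i := ⟨_, rfl⟩
  obtain ⟨B, hBdef⟩ : ∃ B, B = updateRow (1 : Matrix ι ι ℤ) i₀
      fun j => if j = i₀ then 2 else -a j := ⟨_, rfl⟩
  have hBdet : B.det = 2 := by
    have e : (fun j => if j = i₀ then (2 : ℤ) else -a j) =
        ∑ k, (if k = i₀ then (2 : ℤ) else -a k) • (1 : Matrix ι ι ℤ) k := by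
      funext j
      rw [Finset.sum_apply, Finset.sum_eq_single j]
      · simp
      · intro k _ hk
        simp [hk]
      · simp
    rw [hBdef, e, Matrix.det_updateRow_sum, det_one]
    simp
  have hBv : ∀ m i, i ≠ i₀ → (B *ᵥ m) i = m i := fun m i h => by
    simp [hBdef, Matrix.mulVec, dotProduct, h, Matrix.one_apply]
  have hB0 : ∀ m, (B *ᵥ m) i₀ = 2 * m i₀ - ∑ j ∈ Finset.univ.erase i₀, a j * m j := fun m => by
    simp only [hBdef, Matrix.mulVec, dotProduct, updateRow_self]
    rw [← Finset.add_sum_erase _ _ (Finset.mem_univ i₀), if_pos rfl, sub_eq_add_neg,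
      ← Finset.sum_neg_distrib]
    exact congrArg _ (Finset.sum_congr rfl fun j hj => by
      rw [if_neg (Finset.ne_of_mem_erase hj), neg_mul])
  -- the image of `B` is the kernel of the parity
  have hsplit : ∀ v : ι → ℤ,
      v ⬝ᵥ a = v i₀ * a i₀ + ∑ j ∈ Finset.univ.erase i₀, a j * v j := fun v => by
    rw [dotProduct, ← Finset.add_sum_erase _ _ (Finset.mem_univ i₀)]
    exact congrArg _ (Finset.sum_congr rfl fun j _ => mul_comm _ _)
  obtain ⟨k₀, hk₀⟩ : Odd (a i₀) := by rw [ha]; exact hi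
  have hrange : ∀ v : ι → ℤ, (∃ m, B *ᵥ m = v) ↔ 2 ∣ v ⬝ᵥ a := fun v => by
    constructor
    · rintro ⟨m, rfl⟩
      have hs : ∑ j ∈ Finset.univ.erase i₀, a j * (B *ᵥ m) j =
          ∑ j ∈ Finset.univ.erase i₀, a j * m j :=
        Finset.sum_congr rfl fun j hj => by rw [hBv m j (Finset.ne_of_mem_erase hj)]
      rw [hsplit, hB0, hs, hk₀]
      exact ⟨m i₀ * (2 * k₀ + 1) - (∑ j ∈ Finset.univ.erase i₀, a j * m j) * k₀, by ring⟩
    · rintro ⟨t, ht⟩
      rw [hsplit, hk₀] at ht
      refine ⟨Function.update v i₀ (t - v i₀ * k₀), funext fun i => ?_⟩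
      rcases eq_or_ne i i₀ with rfl | h
      · have hs : ∑ j ∈ Finset.univ.erase i, a j * Function.update v i (t - v i * k₀) j =
            ∑ j ∈ Finset.univ.erase i, a j * v j :=
          Finset.sum_congr rfl fun j hj => by
            rw [Function.update_of_ne (Finset.ne_of_mem_erase hj)]
        rw [hB0, Function.update_self, hs]
        linarith
      · rw [hBv _ _ h, Function.update_of_ne h]
  have hBinj : Function.Injective (B.mulVec) :=
    mulVec_injective_of_det_ne_zero (by rw [hBdet]; norm_num)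
  obtain ⟨G, hGdef⟩ : ∃ G, G = (toReal B)ᵀ * toReal A * toReal B := ⟨_, rfl⟩
  have hBr : IsUnit (toReal B).det := by
    rw [det_toReal, hBdet, isUnit_iff_ne_zero]
    norm_num
  have hGpos : G.PosDef := by
    rw [hGdef, ← conjTranspose_eq_transpose_of_trivial]
    exact hA.posDef.conjTranspose_mul_mul_same
      (mulVec_injective_of_isUnit ((isUnit_iff_isUnit_det _).2 hBr))
  have hGdet : G.det = 4 := by
    rw [hGdef, det_mul, det_mul, det_transpose, det_toReal, det_toReal, hBdet, hA.det_eq]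
    norm_num
  -- the series on the vectors of even value
  have heven : gramTheta G (-1 / z) = ∑' v : ι → ℤ,
      (if Even (val A v) then cexp (π * I * val A v * (-1 / z)) else 0) := by
    rw [gramTheta, ← hBinj.tsum_eq (f := fun v : ι → ℤ =>
      if Even (val A v) then cexp (π * I * val A v * (-1 / z)) else 0) fun v hv => ?_]
    · refine tsum_congr fun m => ?_
      have h2 : Even (val A (B *ᵥ m)) := by
        have := (hrange _).1 ⟨m, rfl⟩
        rw [ha] at this
        exact even_iff_two_dvd.2 ((dvd_iff_dvd_of_dvd_sub (two_dvd_val_sub hA.1 _)).1 this)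
      rw [if_pos h2, ← ofReal_intCast, ← gramVal_toReal, gramVal, gramVal, hGdef, ofInt_mulVec,
        ← Matrix.mulVec_mulVec, ← Matrix.mulVec_mulVec, dotProduct_transpose_mulVec,
        dotProduct_comm]
    · rw [Function.mem_support, ne_eq, ite_eq_right_iff, Classical.not_imp] at hv
      obtain ⟨m, hm⟩ := (hrange v).2 (by
        rw [ha]
        exact (dvd_iff_dvd_of_dvd_sub (two_dvd_val_sub hA.1 v)).2 (even_iff_two_dvd.1 hv.1))
      exact ⟨m, hm⟩
  have hsum : ∀ {w : ℂ}, 0 < w.im →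
      Summable fun v : ι → ℤ => cexp (π * I * val A v * w) := fun hw =>
    (summable_gramTerm hA.posDef hw).congr fun v => by rw [gramVal_toReal, ofReal_intCast]
  have hone : latTheta A (1 + -1 / z) = 2 * gramTheta G (-1 / z) - latTheta A (-1 / z) := by
    have hs := hsum (im_neg_one_div_pos hz)
    have hs' : Summable fun v : ι → ℤ =>
        if Even (val A v) then cexp (π * I * val A v * (-1 / z)) else 0 :=
      Summable.of_norm_bounded hs.norm fun v => by split_ifs <;> simp
    rw [heven, latTheta, latTheta, ← tsum_mul_left, ← (hs'.mul_left 2).tsum_sub hs]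
    refine tsum_congr fun v => ?_
    rw [mul_add, mul_one, Complex.exp_add, exp_pi_int]
    split_ifs <;> ring
  -- the dual of that sublattice
  obtain ⟨h, hh⟩ : ∃ h : ι → ℤ, ∀ i, 2 * h i = (Bᵀ *ᵥ a) i := by
    refine ⟨fun i => (Bᵀ *ᵥ a) i / 2, fun i => Int.mul_ediv_cancel' ?_⟩
    rw [Matrix.mulVec_transpose]
    have := (hrange _).1 ⟨Pi.single i 1, rfl⟩
    rwa [dotProduct_comm, Matrix.dotProduct_mulVec, dotProduct_single, mul_one] at this
  have hT0 : ∀ x : ι → ℤ, (Bᵀ *ᵥ x) i₀ = 2 * x i₀ := fun x => by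
    rw [Matrix.mulVec, dotProduct, Finset.sum_eq_single i₀]
    · simp [hBdef]
    · intro j _ hj
      simp [hBdef, hj]
    · simp
  have hTj : ∀ (x : ι → ℤ) j, j ≠ i₀ → (Bᵀ *ᵥ x) j = x j - a j * x i₀ := fun x j hj => by
    rw [Matrix.mulVec, dotProduct, ← Finset.add_sum_erase _ _ (Finset.mem_univ i₀),
      Finset.sum_eq_single j]
    · simp [hBdef, hj]
      ring
    · intro k hk hkj
      simp [hBdef, Finset.ne_of_mem_erase hk, hkj]
    · exact fun h => absurd (Finset.mem_erase.2 ⟨hj, Finset.mem_univ j⟩) h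
  obtain ⟨e, he⟩ : ∃ e : (ι → ℤ) ⊕ (ι → ℤ) → (ι → ℤ),
      e = Sum.elim (fun x => Bᵀ *ᵥ x) fun x => Bᵀ *ᵥ x + h := ⟨_, rfl⟩
  have hh0 : h i₀ = a i₀ := by
    have := hh i₀
    rw [hT0] at this
    linarith
  have hTinj : Function.Injective (Bᵀ).mulVec :=
    mulVec_injective_of_det_ne_zero (by rw [det_transpose, hBdet]; norm_num)
  have hTsurj : ∀ m : ι → ℤ, 2 ∣ m i₀ → ∃ x, Bᵀ *ᵥ x = m := fun m ⟨t, ht⟩ => by
    refine ⟨fun j => if j = i₀ then t else m j + a j * t, funext fun j => ?_⟩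
    rcases eq_or_ne j i₀ with rfl | hj
    · rw [hT0, if_pos rfl, ht]
    · rw [hTj _ _ hj, if_neg hj, if_pos rfl]
      ring
  have hbij : Function.Bijective e := by
    constructor
    · rintro (x | x) (y | y) hxy <;> simp only [he, Sum.elim_inl, Sum.elim_inr] at hxy
      · rw [hTinj hxy]
      · have := congrFun hxy i₀
        simp only [Pi.add_apply, hT0, hh0, hk₀] at this
        omega
      · have := congrFun hxy i₀
        simp only [Pi.add_apply, hT0, hh0, hk₀] at this
        omega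
      · rw [hTinj (add_right_cancel hxy)]
    · intro m
      rcases Int.even_or_odd (m i₀) with hm | ⟨k, hk⟩
      · obtain ⟨x, hx⟩ := hTsurj m (even_iff_two_dvd.1 hm)
        exact ⟨Sum.inl x, by simp [he, hx]⟩
      · obtain ⟨x, hx⟩ := hTsurj (m - h) ⟨k - k₀, by
          simp only [Pi.sub_apply, hh0, hk₀, hk]
          ring⟩
        exact ⟨Sum.inr x, by simp [he, hx]⟩
  have hGu : IsUnit G.det := by rw [hGdet, isUnit_iff_ne_zero]; norm_num
  have hBB : toReal B * (toReal B)⁻¹ = 1 := mul_nonsing_inv _ hBr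
  have hval : ∀ (m : ι → ℤ) (u : ι → ℝ),
      HeckeFE.ofInt m = (toReal B)ᵀ *ᵥ (toReal A *ᵥ u) →
        gramVal G⁻¹ m = u ⬝ᵥ toReal A *ᵥ u := fun m u hm => by
    rw [gramVal_inv_of_eq hGu m ((toReal B)⁻¹ *ᵥ u) (by
      rw [hm, hGdef, Matrix.mul_assoc, ← Matrix.mulVec_mulVec, ← Matrix.mulVec_mulVec,
        Matrix.mulVec_mulVec u (toReal B), hBB, Matrix.one_mulVec]),
      hGdef, ← Matrix.mulVec_mulVec, ← Matrix.mulVec_mulVec, Matrix.mulVec_mulVec u (toReal B),
      hBB, Matrix.one_mulVec, dotProduct_transpose_mulVec, Matrix.mulVec_mulVec u (toReal B),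
      hBB, Matrix.one_mulVec, dotProduct_comm]
  have hleft : ∀ x : ι → ℤ, gramVal G⁻¹ (Bᵀ *ᵥ (A *ᵥ x)) = (val A x : ℝ) := fun x => by
    rw [hval _ (HeckeFE.ofInt x) (by
      rw [ofInt_mulVec, ofInt_mulVec]
      simp [toReal, Matrix.transpose_map]), ← gramVal_toReal, gramVal]
  have hright : ∀ x : ι → ℤ,
      gramVal G⁻¹ (Bᵀ *ᵥ (A *ᵥ x) + h) = (val A ((2 : ℤ) • x + c) : ℝ) / 4 := fun x => by
    have e2 : HeckeFE.ofInt ((2 : ℤ) • (Bᵀ *ᵥ (A *ᵥ x) + h)) =
        (toReal B)ᵀ *ᵥ (toReal A *ᵥ HeckeFE.ofInt ((2 : ℤ) • x + c)) := by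
      rw [← ofInt_mulVec, Matrix.mulVec_add, hc, ← ha, smul_add,
        show (2 : ℤ) • h = Bᵀ *ᵥ a from funext fun i => by simp [hh i], Matrix.mulVec_smul,
        show (toReal B)ᵀ = toReal Bᵀ from Matrix.transpose_map.symm, ← ofInt_mulVec,
        Matrix.mulVec_add, Matrix.mulVec_smul]
    rw [hval _ ((1 / 2 : ℝ) • HeckeFE.ofInt ((2 : ℤ) • x + c)) (by
      rw [Matrix.mulVec_smul, Matrix.mulVec_smul, ← e2]
      funext i
      simp [HeckeFE.ofInt]
      ring), Matrix.mulVec_smul, dotProduct_smul, smul_dotProduct,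
      ← gramVal_toReal, gramVal, smul_eq_mul, smul_eq_mul]
    ring
  have hdual : gramTheta G⁻¹ z = latTheta A z + shadowTheta A c z := by
    have hse : Summable fun p => cexp (π * I * gramVal G⁻¹ (e p) * z) :=
      (Equiv.ofBijective e hbij).summable_iff.2 (summable_gramTerm hGpos.inv hz)
    rw [gramTheta, ← (Equiv.ofBijective e hbij).tsum_eq]
    refine (Summable.tsum_sum (f := fun p => cexp (π * I * gramVal G⁻¹ (e p) * z))
      (hse.comp_injective Sum.inl_injective) (hse.comp_injective Sum.inr_injective)).trans ?_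
    rw [latTheta, shadowTheta, ← (mulVecEquiv A hA.1.2).tsum_eq,
      ← (mulVecEquiv A hA.1.2).tsum_eq (fun x => cexp (π * I * gramVal G⁻¹ (e (Sum.inr x)) * z))]
    congr 1
    · refine tsum_congr fun x => ?_
      simp only [he, mulVecEquiv, Equiv.coe_fn_mk, Sum.elim_inl, hleft, ofReal_intCast]
    · refine tsum_congr fun x => ?_
      simp only [he, mulVecEquiv, Equiv.coe_fn_mk, Sum.elim_inr, hright]
      push_cast
      ring_nf
  rw [hone, gramTheta_inversion hGpos hz, latTheta_inversion hA hz, hGdet, hdual,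
    show √(4 : ℝ) = 2 by rw [show (4 : ℝ) = 2 ^ 2 by norm_num, Real.sqrt_sq two_pos.le]]
  push_cast
  ring

/-- The series depends on the class of the vector mod two. -/
theorem shadowTheta_shift (A : Matrix ι ι ℤ) (c t : ι → ℤ) (z : ℂ) :
    shadowTheta A ((2 : ℤ) • t + c) z = shadowTheta A c z := by
  rw [shadowTheta, shadowTheta, ← (Equiv.addRight t).tsum_eq fun x : ι → ℤ =>
    cexp (π * I * (val A ((2 : ℤ) • x + c) : ℂ) / 4 * z)]
  refine tsum_congr fun x => ?_
  simp [smul_add, add_assoc]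

theorem mulVec_diag_congr (hA : Unimodular A) {c : ι → ℤ} (hc : Characteristic A c) :
    ∃ t c₀ : ι → ℤ, A *ᵥ c₀ = (fun i => A i i) ∧ c = (2 : ℤ) • t + c₀ := by
  obtain ⟨c₀, hc₀⟩ : ∃ c₀, c₀ = A⁻¹ *ᵥ fun i => A i i := ⟨_, rfl⟩
  have hdiag : ∀ i, 2 ∣ (A *ᵥ c) i - A i i := fun i => by
    have := hc (Pi.single i 1)
    rw [IndefiniteUnimodular.dot_swap hA.1, IndefiniteUnimodular.val_single,
      single_dotProduct, one_mul] at this
    exact this
  choose t ht using hdiag
  refine ⟨A⁻¹ *ᵥ t, c₀, ?_, ?_⟩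
  · rw [hc₀, Matrix.mulVec_mulVec, mul_nonsing_inv _ hA.2, Matrix.one_mulVec]
  · rw [hc₀, ← Matrix.mulVec_smul, ← Matrix.mulVec_add,
      show (2 : ℤ) • t + (fun i => A i i) = A *ᵥ c from funext fun i => by simp [← ht i],
      Matrix.mulVec_mulVec, nonsing_inv_mul _ hA.2, Matrix.one_mulVec]

/-- **The shadow**: `θ (1 - 1/z)` is the series over the characteristic vectors. -/
theorem latTheta_shadow (hA : PosUnimodular A) {c : ι → ℤ} (hc : Characteristic A c) {z : ℂ}
    (hz : 0 < z.im) :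
    latTheta A (1 + -1 / z) = (-I * z) ^ ((Fintype.card ι : ℂ) / 2) * shadowTheta A c z := by
  obtain ⟨t, c₀, hc₀, rfl⟩ := mulVec_diag_congr hA.1 hc
  rw [shadowTheta_shift]
  by_cases h : ∃ i, Odd (A i i)
  · obtain ⟨i, hi⟩ := h
    exact latTheta_shadow_odd hA hi hc₀ hz
  · simp only [not_exists, Int.not_odd_iff_even] at h
    choose a ha using fun i => even_iff_two_dvd.1 (h i)
    have e : c₀ = (2 : ℤ) • (A⁻¹ *ᵥ a) + 0 := by
      rw [add_zero, ← Matrix.mulVec_smul, show (2 : ℤ) • a = A *ᵥ c₀ by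
        rw [hc₀]; funext i; simp [ha i], Matrix.mulVec_mulVec, nonsing_inv_mul _ hA.1.2,
        Matrix.one_mulVec]
    have h0 : ∀ v : ι → ℤ, Even (val A v) := (IndefiniteUnimodular.evenForm_iff_diag hA.1.1).2 h
    rw [e, shadowTheta_shift,
      show latTheta A (1 + -1 / z) = latTheta A (-1 / z) from tsum_congr fun v => by
        rw [mul_add, mul_one, Complex.exp_add, exp_pi_int, if_pos (h0 v), one_mul],
      latTheta_inversion hA hz]
    congr 1
    refine tsum_congr fun v => ?_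
    rw [add_zero, IndefiniteUnimodular.val_smul]
    push_cast
    ring_nf

theorem latTheta_two_add (A : Matrix ι ι ℤ) (z : ℂ) : latTheta A (z + 2) = latTheta A z := by
  refine tsum_congr fun v => ?_
  rw [mul_add, Complex.exp_add, show (π : ℂ) * I * val A v * 2 = (val A v : ℤ) * (2 * π * I) by
    ring, Complex.exp_int_mul_two_pi_mul_I, mul_one]

theorem differentiableAt_latTheta (hA : PosUnimodular A) {z : ℂ} (hz : 0 < z.im) :
    DifferentiableAt ℂ (latTheta A) z := by
  have h := differentiableAt_gramTheta hA.posDef hz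
  rwa [show gramTheta (toReal A) = latTheta A from funext (gramTheta_toReal A)] at h

end FA.CharacteristicVectors

end
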